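import Fermat.Agent.AsmX.XLv
import Fermat.Agent.CoreW.Inner
import Fermat.Agent.ZG.Main3

/-!
# The data at a level in the peu ramifiée case, with the ordinary structure
-/

set_option autoImplicit false
set_option linter.unusedSectionVars false
set_option linter.style.haveILetI false

open Matrix IsLocalRing
open Fermat.Agent.GalRep Fermat.Agent.Places Fermat.Agent.Cheb Fermat.Agent.TW Fermat.Agent.JT
open Fermat.Agent.StR Fermat.Agent.ZG Fermat.Agent.Sel Fermat.Agent.E2N Fermat.Agent.AsmL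

namespace Fermat.Agent.AsmX

noncomputable section

local notation "Ω" => AlgebraicClosure ℚ

variable {O : Type} [CommRing O] [IsDomain O] [IsLocalRing O] [IsNoetherianRing O]
  [IsAdicComplete (maximalIdeal O) O] {p : ℕ} [hp : Fact p.Prime]
  {hpO : (p : O) ∈ maximalIdeal O} [Invertible (2 : O)]
  {ρb : GQ →* M2 (ResidueField O)} {g₀ k₀ : GQ} {hgk : HG.IrrAt (fun g => (ρb g).trace) g₀ k₀}
  {ϖ : O} {r g t B : ℕ} {ty : Fin t → Ty} {q : Fin t → ℕ} {ε : Fin t → ℤ} {n : ℕ}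
  {v : Fin r → ℕ} {Av : Fin r → ValuationSubring Ω} {m : Fin r → ℕ}

section defs

variable {T Y : Type} [CommRing T] [Algebra O T] [AddCommGroup Y] [Module O Y]
  [Module.Finite O Y] [Module.Free O Y] [Nontrivial Y] {S : Set ℕ}
  {ψ : T →ₐ[O] Module.End O Y} {θ : T →ₐ[O] ResidueField O} {ρ : GQ →* Module.End O Y}
  (h : HG hpO S (fun g => (ρb g).trace) ψ θ ρ)

variable (hgk) in
/-- the value of the quotient character -/
def psV (Q Qi : Matrix (Fin 2) (Fin 2) h.TT) (g : GQ) : h.TT := (Qi * h.R hgk g * Q) 1 1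

theorem psV_mul {A : ValuationSubring Ω} {Q Qi : Matrix (Fin 2) (Fin 2) h.TT}
    (H : OrdR h hgk A Q Qi) {Φ : GQ} (hΦ : Φ ∈ A.decompositionSubgroup ℚ) :
    psV hgk h Q Qi Φ * psV hgk h Q Qi Φ⁻¹ = 1 := by
  rw [psV, psV, ← H.mul11 hΦ, mul_inv_cancel, map_one, mul_one, H.inv', Matrix.one_apply_eq]

theorem psV_map {T' Y' : Type} [CommRing T'] [Algebra O T'] [AddCommGroup Y'] [Module O Y']
    [Module.Finite O Y'] [Module.Free O Y'] [Nontrivial Y'] {S' : Set ℕ}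
    {ψ' : T' →ₐ[O] Module.End O Y'} {θ' : T' →ₐ[O] ResidueField O} {ρ' : GQ →* Module.End O Y'}
    (h' : HG hpO S' (fun g => (ρb g).trace) ψ' θ' ρ') (π : h.TT →ₐ[O] h'.TT)
    (hπ : ∀ g, π (h.tt g) = h'.tt g) (Q Qi : Matrix (Fin 2) (Fin 2) h.TT) (g : GQ) :
    psV hgk h' (Q.map π) (Qi.map π) g = π (psV hgk h Q Qi g) := by
  have hmm : ∀ X Z : Matrix (Fin 2) (Fin 2) h.TT, (X * Z).map π = X.map π * Z.map π := fun X Z =>
    map_mul (π.toRingHom.mapMatrix : Matrix (Fin 2) (Fin 2) h.TT →+* _) X Z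
  rw [psV, psV, ← map_R π hπ, ← hmm, ← hmm, Matrix.map_apply]

end defs

/-- **The data at `p`**: for every ordinary frame of the flat level, the degeneracy data with
`T = ψ + p ψ⁻¹`, such that `ψ² = 1` on the classes with vanishing transfers. -/
def StepPH (hgk : HG.IrrAt (fun g => (ρb g).trace) g₀ k₀) (A : ValuationSubring Ω) (Φp : GQ)
    (XV' XV : LM hpO hgk v Av m B) : Prop :=
  ∀ Q Qi : Matrix (Fin 2) (Fin 2) XV.hg.TT, OrdR XV.hg hgk A Q Qi →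
    ∃ IP : IhD XV XV' p (psV hgk XV.hg Q Qi Φp + p * psV hgk XV.hg Q Qi Φp⁻¹),
      ∀ Q' Qi' : Matrix (Fin 2) (Fin 2) XV'.hg.TT, OrdR XV'.hg hgk A Q' Qi' →
        ∀ y, IP.s1.u y = 0 → IP.s2.u y = 0 → (psV hgk XV'.hg Q' Qi' Φp ^ 2 - 1) • y = 0

variable {T' Y' : Type} [CommRing T'] [Algebra O T'] [AddCommGroup Y'] [Module O Y']
  [Module.Finite O Y'] [Module.Free O Y'] [Nontrivial Y'] {S' : Set ℕ}
  {ψ' : T' →ₐ[O] Module.End O Y'} {θ' : T' →ₐ[O] ResidueField O} {ρ' : GQ →* Module.End O Y'}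
  (hj : HG hpO S' (fun g => (ρb g).trace) ψ' θ' ρ')

include hgk in
/-- **XLev from an ordinary trace ring with a point.** -/
theorem exists_XLev_ord (hmax : maximalIdeal O = Ideal.span {ϖ}) (hm : ∀ i, n ≤ m i)
    (XV' XV : LM hpO hgk v Av m B) (XU : Fin t → LM hpO hgk v Av m B) (XM : LM hpO hgk v Av m B)
    {Fr : Fin t → GQ} (I : ∀ j, IhQ (XU j) XV (q j) (Fr j)) (u : GMi XM XV) (u' : GMi XV XV')
    {A₀ : ℕ → ValuationSubring Ω} {Φp : GQ} (hΦp : (A₀ p).IsFrobeniusAt Φp p)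
    (hIP : StepPH hgk (A₀ p) Φp XV' XV)
    (φ₁ : hj.TT →ₐ[O] XV'.hg.TT) (t1 : ∀ g, φ₁ (hj.tt g) = XV'.hg.tt g)
    (g1 : ∀ g, (hj.R hgk g).map (φ₁ : hj.TT →+* XV'.hg.TT) = XV'.hg.R hgk g)
    {ρW : GQ →* M2 O} (φ₂ : hj.TT →ₐ[O] O)
    (g2 : ∀ g, (hj.R hgk g).map (φ₂ : hj.TT →+* O) = ρW g)
    (hreg : ∀ y : Y', (p : O) • y = 0 → y = 0)
    {Fv : Fin r → GQ} (hv : ∀ i, TWp p (fun g => (ρb g).trace) (v i) (Av i) (Fv i))
    (hWv : ∀ i, ∀ σ ∈ (Av i).inertiaSubgroupIn ℚ, ρW σ = 1)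
    {vv : Fin t → Fin 2 → O} {σ₀ : Fin t → GQ}
    {Qj : Fin t → Matrix (Fin 2) (Fin 2) hj.TT}
    (hred : redR (hj.R hgk) hj.theta.toRingHom = ρb)
    (h2k : (2 : ResidueField O) ≠ 0)
    (H : NmH hj hgk q ty ε A₀ Fr vv)
    (F : FrD hj hgk q ty A₀ Fr vv σ₀ Qj)
    (hMu : ∀ j, ∀ σ ∈ (A₀ (q j)).inertiaSubgroupIn ℚ, XM.hg.R hgk σ = 1)
    (hWt : ∀ j, (ρW (Fr j)).trace = ε j * (q j + 1))
    (hWs : ∀ j, ∀ σ ∈ (A₀ (q j)).inertiaSubgroupIn ℚ,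
      (ρW σ - 1) * (ρW (Fr j) - (ε j : O) • (1 : Matrix (Fin 2) (Fin 2) O)) = 0)
    {Q Qi : Matrix (Fin 2) (Fin 2) hj.TT} (HO : OrdR hj hgk (A₀ p) Q Qi)
    (hxu : φ₂ ((Qi * hj.R hgk Φp * Q) 1 1 ^ 2 - 1) = 0)
    (hgen : ∀ π : hj.TT →ₐ[O] XV.hg.TT, (∀ g, π (hj.tt g) = XV.hg.tt g) →
      (Qi * hj.R hgk Φp * Q) 1 1 ^ 2 - 1 ∈ maximalIdeal hj.TT ∧
      ∃ w ∈ maximalIdeal hj.TT, ∃ z : Fin g → hj.TT, (∀ i, z i ∈ maximalIdeal hj.TT) ∧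
      maximalIdeal hj.TT ≤ Ideal.span {algebraMap O hj.TT ϖ} ⊔
        Ideal.span (Set.range (Fin.cons ((Qi * hj.R hgk Φp * Q) 1 1 ^ 2 - 1) z :
          Fin (g + 1) → hj.TT)) ⊔ Ideal.span {w} ⊔
        Ideal.span (parS q ty ε (PhiJ hj hgk ty Fr vv Qj) (NJ hj hgk ty Fr vv σ₀ Qj)) ⊔
        maximalIdeal hj.TT ^ 2 ∧
      maximalIdeal XV.hg.TT ≤ Ideal.span {algebraMap O XV.hg.TT ϖ} ⊔
        Ideal.span (Set.range fun i => π ((Fin.cons ((Qi * hj.R hgk Φp * Q) 1 1 ^ 2 - 1) z :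
          Fin (g + 1) → hj.TT) i)) ⊔
        Ideal.span (parS q ty ε (fun j => (PhiJ hj hgk ty Fr vv Qj j).map π)
          (fun j => (NJ hj hgk ty Fr vv σ₀ Qj j).map π)) ⊔ maximalIdeal XV.hg.TT ^ 2)
    (a : hj.TT) {c : O} (ha : φ₂ a = c)
    (hctl : ∀ L : ∀ i, LocW p (v i) (Av i) (XV'.hg.R hgk), ∀ y : XV'.Y,
      (φ₁ a) • y ∈ augS XV'.Y (fun i => (L i).η (L i).σ₀)) :
    Nonempty (XLev O ϖ p r g t B ty q ε c n) := by
  obtain ⟨φ, e1, e2⟩ := u'.exists_TT (hgk := hgk) hmax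
  have tπ : ∀ g, (φ.comp φ₁) (hj.tt g) = XV.hg.tt g := fun g => by
    rw [AlgHom.comp_apply, t1, e1]
  have gπ : ∀ g, (hj.R hgk g).map ((φ.comp φ₁ : hj.TT →ₐ[O] XV.hg.TT) : hj.TT →+* XV.hg.TT) =
      XV.hg.R hgk g := fun g => by
    rw [← e2, ← g1, Matrix.map_map]
    rfl
  set π := φ.comp φ₁ with hπ
  have HO1 := ordR_map π tπ HO
  have HO2 := ordR_map φ₁ t1 HO
  have hΦD : Φp ∈ (A₀ p).decompositionSubgroup ℚ := hΦp.mem_decompositionSubgroup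
  obtain ⟨IP, hIP1⟩ := hIP _ _ HO1
  obtain ⟨hum, w, hw, z, hz, hgen', hgen''⟩ := hgen π tπ
  refine exists_XLev_of (hgk := hgk) hj hmax hm XV' XV XU XM I u IP φ₁ t1 g1 φ₂ g2 π tπ gπ hreg hv
    hWv hred h2k H F hMu hWt hWs (ψ := psV hgk hj Q Qi Φp) (ψi := psV hgk hj Q Qi Φp⁻¹)
    (psV_mul hj HO hΦD) ?_ ?_ hum hxu hw z hz hgen' hgen'' a ha hctl
  · rw [psV_map hj XV.hg π tπ, psV_map hj XV.hg π tπ, map_add, map_mul, map_natCast]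
  · intro y h1 h2
    have h3 := hIP1 _ _ HO2 y h1 h2
    rw [psV_map hj XV'.hg φ₁ t1] at h3
    rw [map_sub, map_pow, map_one]
    exact h3

end

end Fermat.Agent.AsmX
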