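import Fermat.Agent.AsmL.Mats
import Fermat.Agent.ZG.Pt

/-!
# The matrices of the degeneracy maps at `p`
-/

set_option autoImplicit false
set_option linter.unusedSectionVars false
set_option linter.style.haveILetI false

open IsLocalRing
open Fermat.Agent.GalRep Fermat.Agent.Places Fermat.Agent.Cheb Fermat.Agent.TW Fermat.Agent.JT
open Fermat.Agent.AsmL

namespace Fermat.Agent.AsmX

noncomputable section

local notation "Ω" => AlgebraicClosure ℚ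

section unit

variable {A : Type} [CommRing A] [IsLocalRing A] {p : ℕ}

/-- `ψ² - 1` is a multiple of `T² - (p + 1)²` -/
theorem exists_beta (hp : (p : A) ∈ maximalIdeal A) {ψ ψi : A} (h : ψ * ψi = 1) :
    ∃ b c : A, b * ((ψ + p * ψi) ^ 2 - ((p : A) + 1) ^ 2) = ψ ^ 2 - 1 ∧
      (ψ + p * ψi) ^ 2 - ((p : A) + 1) ^ 2 = c * (ψ ^ 2 - 1) := by
  have h1 : IsUnit (1 - (p : A) ^ 2 * ψi ^ 2) := by
    by_contra hu
    have h2 : 1 - (p : A) ^ 2 * ψi ^ 2 ∈ maximalIdeal A := (mem_maximalIdeal _).2 hu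
    have h3 : (p : A) ^ 2 * ψi ^ 2 ∈ maximalIdeal A :=
      Ideal.mul_mem_right _ _ (Ideal.pow_mem_of_mem _ hp _ two_pos)
    have h4 := Ideal.add_mem _ h2 h3
    rw [sub_add_cancel] at h4
    exact (Ideal.ne_top_iff_one _).1 (maximalIdeal.isMaximal A).ne_top h4
  obtain ⟨b, hb⟩ := h1.exists_left_inv
  have h2 : (ψ + p * ψi) ^ 2 - ((p : A) + 1) ^ 2 = (1 - (p : A) ^ 2 * ψi ^ 2) * (ψ ^ 2 - 1) := by
    linear_combination (2 * (p : A) + (p : A) ^ 2 * (ψ * ψi + 1)) * h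
  refine ⟨b, _, ?_, h2⟩
  rw [h2, ← mul_assoc, hb, one_mul]

end unit

variable {O : Type} [CommRing O] [IsLocalRing O] [IsNoetherianRing O]
  [IsAdicComplete (maximalIdeal O) O] {p : ℕ} [hp : Fact p.Prime]
  {hpO : (p : O) ∈ maximalIdeal O} [Invertible (2 : O)]
  {t : GQ → ResidueField O} {g₀ k₀ : GQ} {hgk : HG.IrrAt t g₀ k₀} {r : ℕ} {v : Fin r → ℕ}
  {Av : Fin r → ValuationSubring Ω} {m : Fin r → ℕ} {B : ℕ}
  {A : Type} [CommRing A] [IsLocalRing A] [Algebra O A] {tA : GQ → A}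
  (hA : Algebra.adjoin O (Set.range tA) = ⊤) {γ : Fin r → A}
  {XU XV : LM hpO hgk v Av m B} {πU : A →ₐ[O] XU.hg.TT} {πV : A →ₐ[O] XV.hg.TT}
  (hU : ∀ g, πU (tA g) = XU.hg.tt g) (hV : ∀ g, πV (tA g) = XV.hg.tt g)
  (CU : Crd (O := O) (GR.δ O fun i => p ^ m i) (acM XU.hg πU) γ)
  (CV : Crd (O := O) (GR.δ O fun i => p ^ m i) (acM XV.hg πV) γ)

include hA hU hV in
/-- the matrices at the prime `p`, with the field `new'` -/
theorem exists_mats_p [IsLocalRing (GR O fun i => p ^ m i)] {T : XU.hg.TT}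
    (I : IhD XU XV p T) (hpA : (p : A) ∈ maximalIdeal A) {ψ ψi : A} (hψ : ψ * ψi = 1)
    (hT : πU (ψ + p * ψi) = T)
    (hnew : ∀ y, I.s1.u y = 0 → I.s2.u y = 0 → πV (ψ ^ 2 - 1) • y = 0) :
    ∃ M : IhM CV.f CU.f p (ψ + p * ψi), ∃ G1 G2 : Matrix (Fin CU.d) (Fin CV.d)
      (GR O fun i => p ^ m i), CV.f ((ψ ^ 2 - 1) ^ 3) = M.i1 * G1 + M.i2 * G2 := by
  obtain ⟨M, h1, h2⟩ := I.exists_mats hA hU hV CU CV hT
  obtain ⟨b, c, hb, hc⟩ := exists_beta hpA hψ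
  obtain ⟨G1, G2, hG⟩ := E2N.new_of CV.f.toRingHom CU.f.toRingHom (τ := ψ + p * ψi)
    (c := (p : A) + 1)
    M.hi1 M.hi2 M.hs1 M.hs2 M.hsi.1 M.hsi.2.1 M.hsi.2.2.1 M.hsi.2.2.2 (fun x hx1 hx2 => by
      obtain ⟨y, rfl⟩ := CV.E.surjective x
      have h3 : I.s1.u (inM XV.hg y) = 0 := by
        rw [← inM_mq XV.hg XU.hg I.s1.u I.s1.hu]
        have h4 : mq XV.hg XU.hg I.s1.u I.s1.hu y = 0 := by
          apply CU.E.injective
          rw [h1, hx1, map_zero]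
        rw [h4, map_zero]
      have h3' : I.s2.u (inM XV.hg y) = 0 := by
        rw [← inM_mq XV.hg XU.hg I.s2.u I.s2.hu]
        have h4 : mq XV.hg XU.hg I.s2.u I.s2.hu y = 0 := by
          apply CU.E.injective
          rw [h2, hx2, map_zero]
        rw [h4, map_zero]
      have h5 := hnew _ h3 h3'
      change (CV.f ((ψ + p * ψi) ^ 2 - ((p : A) + 1) ^ 2)).mulVec (CV.E y) = 0
      rw [hc, ← CV.hE]
      have h6 : acM XV.hg πV (c * (ψ ^ 2 - 1)) y = 0 := by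
        apply inM_injective
        rw [acM_apply, inM_smul, map_zero, map_mul, mul_smul, h5, smul_zero]
      rw [h6, map_zero])
  refine ⟨M, CU.f (b ^ 3) * G1, CU.f (b ^ 3) * G2, ?_⟩
  have hG' : CV.f (((ψ + p * ψi) ^ 2 - ((p : A) + 1) ^ 2) ^ 3) = M.i1 * G1 + M.i2 * G2 := hG
  rw [← hb, mul_pow, map_mul, hG', Matrix.mul_add, ← Matrix.mul_assoc, ← Matrix.mul_assoc,
    M.hi1, M.hi2, Matrix.mul_assoc, Matrix.mul_assoc]

end

end Fermat.Agent.AsmX
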