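import Fermat.Agent.AsmX.Abs
import Fermat.Agent.CoreW.TwLv
import Fermat.Agent.JT.FlatAll
import Fermat.Agent.AsmF.FamW

/-!
# The data at a level, for a semistable curve (case III)
-/

set_option autoImplicit false
set_option linter.unusedSectionVars false
set_option linter.style.haveILetI false

noncomputable section

namespace Fermat.Agent.AsmX

open Matrix IsLocalRing Fermat.Agent.GalRep Fermat.Agent.TW Fermat.Agent.Places Fermat.Agent.Flat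
open Fermat.Agent.Cheb Fermat.Agent.KumG Fermat.Agent.MD Fermat.Agent.Sel Fermat.Agent.ImW
open Fermat.Agent.WM Fermat.Agent.StR Fermat.Agent.JT Fermat.Agent.AsmL Fermat.Agent.E2N
open Fermat.Agent.CoreW
open Fermat.Agent.ZG (NData SDat LvH FrD NmH PhiJ parS TWn OrdR Det L0)

local notation "Ω" => AlgebraicClosure ℚ

local notation "𝒢" => (AlgebraicClosure ℚ) ≃ₐ[ℚ] (AlgebraicClosure ℚ)

section abs

variable {O : Type} [CommRing O] [IsDomain O] [IsLocalRing O] [IsNoetherianRing O]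
  [IsAdicComplete (maximalIdeal O) O] {p : ℕ} [hp : Fact p.Prime]
  {hpO : (p : O) ∈ maximalIdeal O} [Invertible (2 : O)] {ι : AlgebraicClosure ℚ →+* ℂ}
  {ρb : GQ →* M2 (ResidueField O)} {g₀ k₀ : GQ} {hgk : HG.IrrAt (fun g => (ρb g).trace) g₀ k₀}
  {ϖ : O} {r g t B : ℕ} {ty : Fin t → Ty} {q : Fin t → ℕ} {ε : Fin t → ℤ} {n : ℕ}
  {v : Fin r → ℕ} {Av : Fin r → ValuationSubring Ω} {m c : Fin r → ℕ}
  {T' Y' : Type} [CommRing T'] [Algebra O T'] [AddCommGroup Y'] [Module O Y']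
  [Module.Finite O Y'] [Module.Free O Y'] [Nontrivial Y'] {S' : Set ℕ}
  {ψ' : T' →ₐ[O] Module.End O Y'} {θ' : T' →ₐ[O] ResidueField O} {ρ' : GQ →* Module.End O Y'}
  (hj : HG hpO S' (fun g => (ρb g).trace) ψ' θ' ρ')

include hgk in
/-- XLev, for concrete levels and an abstract joint ring -/
theorem xlev_abs (hmax : maximalIdeal O = Ideal.span {ϖ}) (hm : ∀ i, n ≤ m i)
    {N' N NM : ℕ} [NeZero N'] [NeZero N] [NeZero NM] {S : Set ℕ}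
    {hNS' : ∀ l, l.Prime → l ∣ N' → l ∈ S}
    {hNS : ∀ l, l.Prime → l ∣ N → l ∈ S} {hNMS : ∀ l, l.Prime → l ∣ NM → l ∈ S}
    {θ : TS O S →ₐ[O] ResidueField O} {e : TS O S}
    (XV' : Lev0 hpO ι hgk hNS' θ v Av m c e B)
    (XV : Lev0 hpO ι hgk hNS θ v Av m c e B) (XM : Lev0 hpO ι hgk hNMS θ v Av m c e B)
    (XU : Fin t → LM hpO hgk v Av m B)
    {Fr : Fin t → GQ} (I : ∀ j, IhQ (XU j) (LM.of XV) (q j) (Fr j)) (u : GMi (LM.of XM) (LM.of XV))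
    (u' : GMi (LM.of XV) (LM.of XV')) {A₀ : ℕ → ValuationSubring Ω} {Φp : GQ}
    (hΦp : (A₀ p).IsFrobeniusAt Φp p)
    (hIP : StepPH hgk (A₀ p) Φp (LM.of XV') (LM.of XV)) :
    haveI := XV'.hH; haveI := XV'.nt; haveI := XV'.fr
    haveI := XV.hH; haveI := XV.nt; haveI := XV.fr
    haveI := XM.hH; haveI := XM.nt; haveI := XM.fr
    ∀ (φ₁ : hj.TT →ₐ[O] XV'.hg.TT) (_ : ∀ g, φ₁ (hj.tt g) = XV'.hg.tt g)
    (_ : ∀ g, (hj.R hgk g).map (φ₁ : hj.TT →+* XV'.hg.TT) = XV'.hg.R hgk g)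
    {ρW : GQ →* M2 O} (φ₂ : hj.TT →ₐ[O] O) (_ : ∀ g, φ₂ (hj.tt g) = (ρW g).trace)
    (_ : ∀ g, (hj.R hgk g).map (φ₂ : hj.TT →+* O) = ρW g)
    (_ : ∀ y : Y', (p : O) • y = 0 → y = 0)
    {Fv : Fin r → GQ} (_ : ∀ i, TWp p (fun g => (ρb g).trace) (v i) (Av i) (Fv i))
    (_ : ∀ i, ∀ σ ∈ (Av i).inertiaSubgroupIn ℚ, ρW σ = 1)
    {vv : Fin t → Fin 2 → O} {σ₀ : Fin t → GQ}
    {Qj : Fin t → Matrix (Fin 2) (Fin 2) hj.TT}
    (_ : redR (hj.R hgk) hj.theta.toRingHom = ρb)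
    (_ : (2 : ResidueField O) ≠ 0)
    (_ : NmH hj hgk q ty ε A₀ Fr vv)
    (_ : FrD hj hgk q ty A₀ Fr vv σ₀ Qj)
    (_ : ∀ j, ∀ σ ∈ (A₀ (q j)).inertiaSubgroupIn ℚ, XM.hg.R hgk σ = 1)
    (_ : ∀ j, (ρW (Fr j)).trace = ε j * (q j + 1))
    (_ : ∀ j, ∀ σ ∈ (A₀ (q j)).inertiaSubgroupIn ℚ,
      (ρW σ - 1) * (ρW (Fr j) - (ε j : O) • (1 : Matrix (Fin 2) (Fin 2) O)) = 0)
    {Q Qi : Matrix (Fin 2) (Fin 2) hj.TT} (_ : OrdR hj hgk (A₀ p) Q Qi)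
    (_ : φ₂ ((Qi * hj.R hgk Φp * Q) 1 1 ^ 2 - 1) = 0)
    (_ : ∀ π : hj.TT →ₐ[O] XV.hg.TT, (∀ g, π (hj.tt g) = XV.hg.tt g) →
      (Qi * hj.R hgk Φp * Q) 1 1 ^ 2 - 1 ∈ maximalIdeal hj.TT ∧
      ∃ w ∈ maximalIdeal hj.TT, ∃ z : Fin g → hj.TT, (∀ i, z i ∈ maximalIdeal hj.TT) ∧
      maximalIdeal hj.TT ≤ Ideal.span {algebraMap O hj.TT ϖ} ⊔
        Ideal.span (Set.range (Fin.cons ((Qi * hj.R hgk Φp * Q) 1 1 ^ 2 - 1) z :
          Fin (g + 1) → hj.TT)) ⊔ Ideal.span {w} ⊔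
        Ideal.span (parS q ty ε (PhiJ hj hgk ty Fr vv Qj) (ZG.NJ hj hgk ty Fr vv σ₀ Qj)) ⊔
        maximalIdeal hj.TT ^ 2 ∧
      maximalIdeal XV.hg.TT ≤ Ideal.span {algebraMap O XV.hg.TT ϖ} ⊔
        Ideal.span (Set.range fun i => π ((Fin.cons ((Qi * hj.R hgk Φp * Q) 1 1 ^ 2 - 1) z :
          Fin (g + 1) → hj.TT) i)) ⊔
        Ideal.span (parS q ty ε (fun j => (PhiJ hj hgk ty Fr vv Qj j).map π)
          (fun j => (ZG.NJ hj hgk ty Fr vv σ₀ Qj j).map π)) ⊔ maximalIdeal XV.hg.TT ^ 2)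
    {κ : Type} (Fκ : κ → GQ) (s : MvPolynomial κ O) {c' : O}
    (_ : MvPolynomial.aeval (fun l => (ρW (Fκ l)).trace) s = c')
    (_ : ∀ L : ∀ i, LocW p (v i) (Av i) (XV'.hg.R hgk), ∀ y : YH (HQ XV'.hvN c) hNS' e,
      (MvPolynomial.aeval (fun l => XV'.hg.tt (Fκ l)) s : XV'.hg.TT) • y ∈
        augS (YH (HQ XV'.hvN c) hNS' e) (fun i => (L i).η (L i).σ₀)),
    Nonempty (XLev O ϖ p r g t B ty q ε c' n) := by
  haveI := XV'.hH
  haveI := XV'.nt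
  haveI := XV'.fr
  haveI := XV.hH
  haveI := XV.nt
  haveI := XV.fr
  haveI := XM.hH
  haveI := XM.nt
  haveI := XM.fr
  intro φ₁ t1 g1 ρW φ₂ t2 g2 hreg Fv hv hWv vv σ₀ Qj hred h2k H F hMu hWt hWs Q Qi HO hxu hgen κ Fκ
    s c' ha hctl
  have ha1 : φ₁ (MvPolynomial.aeval (fun l => hj.tt (Fκ l)) s) =
      (MvPolynomial.aeval (fun l => XV'.hg.tt (Fκ l)) s : XV'.hg.TT) := by
    rw [← AlgHom.comp_apply, MvPolynomial.comp_aeval]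
    simp only [t1]
  have ha2 : φ₂ (MvPolynomial.aeval (fun l => hj.tt (Fκ l)) s) = c' := by
    rw [← AlgHom.comp_apply, MvPolynomial.comp_aeval]
    simp only [t2]
    exact ha
  exact exists_XLev_ord (hgk := hgk) (ρb := ρb) hj hmax hm (LM.of XV') (LM.of XV) XU (LM.of XM) I u
    u' hΦp hIP φ₁ t1 g1
    φ₂ g2 hreg hv hWv hred h2k H F hMu hWt hWs HO hxu hgen
    (MvPolynomial.aeval (fun l => hj.tt (Fκ l)) s) ha2 (fun L y => by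
      have h3 := hctl L y
      rw [← ha1] at h3
      exact h3)

end abs

section gens

variable {O : Type} [CommRing O] [IsDomain O] [IsLocalRing O] [IsNoetherianRing O]
  [IsAdicComplete (maximalIdeal O) O] {p : ℕ} [hp : Fact p.Prime]
  {hpO : (p : O) ∈ maximalIdeal O} {ρb : GQ →* M2 (ResidueField O)} [Invertible (2 : O)]
  {g₀ k₀ : GQ} {hgk : HG.IrrAt (fun g => (ρb g).trace) g₀ k₀}
  {T' Y' : Type} [CommRing T'] [Algebra O T'] [AddCommGroup Y'] [Module O Y']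
  [Module.Finite O Y'] [Module.Free O Y'] [Nontrivial Y'] {S' : Set ℕ}
  {ψ' : T' →ₐ[O] Module.End O Y'} {θ' : T' →ₐ[O] ResidueField O} {ρ' : GQ →* Module.End O Y'}
  {h' : HG hpO S' (fun g => (ρb g).trace) ψ' θ' ρ'}
  {T Y : Type} [CommRing T] [Algebra O T] [AddCommGroup Y] [Module O Y]
  [Module.Finite O Y] [Module.Free O Y] [Nontrivial Y] {S : Set ℕ}
  {ψ : T →ₐ[O] Module.End O Y} {θ : T →ₐ[O] ResidueField O} {ρ : GQ →* Module.End O Y}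
  {h : HG hpO S (fun g => (ρb g).trace) ψ θ ρ}
  {t : ℕ} {q : Fin t → ℕ} {ty : Fin t → Ty} {ε : Fin t → ℤ}
    {A₀ : ℕ → ValuationSubring Ω} {Φ : Fin t → GQ} {v : Fin t → Fin 2 → O}
    {σ₀ : Fin t → GQ} {Qj : Fin t → Matrix (Fin 2) (Fin 2) h'.TT} {ϖ : O}
    [Finite (ResidueField O)] [Algebra (ZMod p) (ResidueField O)] {S₀ Un : Finset ℕ}
    {r g n : ℕ} {Sx : Set ℕ}

/-- the generators in the format of `exists_XLev_ord` -/
theorem gens3 {ζ P : Ω} {σ₁ : 𝒢} (hd : Det (A₀ p) p ζ P σ₁) (h1 : ρb σ₁ = 1)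
    (X : TWn p ρb S₀ A₀ (L0 p ρb σ₁) q Un r g n Sx)
    (L : LvH h' hgk ϖ q ty ε A₀ Φ v S₀ Un X.S) (F : FrD h' hgk q ty A₀ Φ v σ₀ Qj)
    (hA : (A₀ p).LiesOverPrime p) {Q Qi : Matrix (Fin 2) (Fin 2) h'.TT}
    (HO : OrdR h' hgk (A₀ p) Q Qi) {Φp : 𝒢} (hΦ : (A₀ p).IsFrobeniusAt Φp p) (hO : LC.RO ρb p)
    (hfl : FlatAll p (A₀ p) (fun g => ρ g)) (hred : redR (h.R hgk) h.theta.toRingHom = ρb)
    (π : h'.TT →ₐ[O] h.TT) (hπ : ∀ g, π (h'.tt g) = h.tt g) :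
    (Qi * h'.R hgk Φp * Q) 1 1 ^ 2 - 1 ∈ maximalIdeal h'.TT ∧
    ∃ w ∈ maximalIdeal h'.TT, ∃ z : Fin g → h'.TT, (∀ i, z i ∈ maximalIdeal h'.TT) ∧
      maximalIdeal h'.TT ≤ Ideal.span {algebraMap O h'.TT ϖ} ⊔
        Ideal.span (Set.range (Fin.cons ((Qi * h'.R hgk Φp * Q) 1 1 ^ 2 - 1) z :
          Fin (g + 1) → h'.TT)) ⊔ Ideal.span {w} ⊔
        Ideal.span (parS q ty ε (PhiJ h' hgk ty Φ v Qj) (ZG.NJ h' hgk ty Φ v σ₀ Qj)) ⊔
        maximalIdeal h'.TT ^ 2 ∧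
      maximalIdeal h.TT ≤ Ideal.span {algebraMap O h.TT ϖ} ⊔
        Ideal.span (Set.range fun i => π ((Fin.cons ((Qi * h'.R hgk Φp * Q) 1 1 ^ 2 - 1) z :
          Fin (g + 1) → h'.TT) i)) ⊔
        Ideal.span (parS q ty ε (fun j => (PhiJ h' hgk ty Φ v Qj j).map π)
          (fun j => (ZG.NJ h' hgk ty Φ v σ₀ Qj j).map π)) ⊔ maximalIdeal h.TT ^ 2 := by
  obtain ⟨hu, hw, z, hz, h2, h3⟩ := ZG.gen_three hd h1 X L F hA HO hΦ hO π hπ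
    (fun J D hD hpJ => mem_flatS_of_flatAll h hgk L.hN.odd hA hfl hred J D hD hpJ)
  exact ⟨hu, _, hw, z, hz, h2, h3⟩

end gens

section inner

variable {W : WeierstrassCurve ℤ} {p r₀ : ℕ} [hp : Fact p.Prime] {ρ : 𝒢 →* M2 (ZMod p)}
  (hΔ : W.Δ ≠ 0) (hss : W.IsSemistableModel) (hd : (p : ℤ) ∣ W.Δ)
  (h : ResW W p ρ)
  {O : Type} [CommRing O] [IsDomain O] [IsDiscreteValuationRing O]
  [IsAdicComplete (maximalIdeal O) O] [CharZero O] [Finite (ResidueField O)]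
  (hp2 : p ≠ 2) {hpO : (p : O) ∈ maximalIdeal O}
  (hmax : maximalIdeal O = Ideal.span {(p : O)})
  {ι : AlgebraicClosure ℚ →+* ℂ} [Invertible (2 : O)] [Algebra (ZMod p) (ResidueField O)]
  {g₀ k₀ : 𝒢}
  {hgk : HG.IrrAt (fun g => (extW ρ (algebraMap (ZMod p) (ResidueField O)) g).trace) g₀ k₀}
  {ρW : 𝒢 →* M2 O} (hW : WPt.WRep W p hpO ρ (algebraMap (ZMod p) (ResidueField O)) g₀ ρW)
  {t : ℕ} {q : Fin t → ℕ} {ty : Fin t → Ty} {S₀ Un : Finset ℕ}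
  (D : BData W p r₀ ρ (ResidueField O) q ty S₀ Un 1)
  {ε : Fin t → ℤ} {A₀ : ℕ → ValuationSubring Ω} {Φ : Fin t → 𝒢} {vv : Fin t → Fin 2 → O}
  (SD : ZG.SDat W p r₀ ρ q ty S₀ Un ρW ε A₀ Φ vv)

set_option maxHeartbeats 1000000 in
include hΔ hss hd h hp2 hmax hW D SD in
/-- **The data at a level, case III.** -/
theorem xlev_inner [NeZero (NJ p r₀ Un q Finset.univ)]
    {r : ℕ} {v : Fin r → ℕ} {A : Fin r → ValuationSubring Ω} {Fv : Fin r → GQ}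
    (hinj : Function.Injective v) (hvS : ∀ i, v i ∉ (S₀ : Set ℕ))
    {m c : Fin r → ℕ} (hmc : ∀ i, v i - 1 = p ^ m i * c i) (hc : ∀ i, ¬ p ∣ c i)
    (hm : ∀ i, 1 ≤ m i) {n : ℕ} (hmn : ∀ i, n ≤ m i)
    (hv : ∀ i, TWp p (fun g => (extW ρ (algebraMap (ZMod p) (ResidueField O)) g).trace) (v i)
      (A i) (Fv i))
    {N' N NM : ℕ} [NeZero N'] [NeZero N] [NeZero NM]
    (hN' : N' = NJ p r₀ Un q Finset.univ * ∏ i, v i)
    (hN : N = NJ 1 r₀ Un q Finset.univ * ∏ i, v i)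
    (hNM : NM = NJ 1 r₀ Un q ∅ * ∏ i, v i) {S : Set ℕ}
    (hSS : S = (S₀ : Set ℕ) ∪ Set.range v)
    {hNS' : ∀ l, l.Prime → l ∣ N' → l ∈ S}
    {hNS : ∀ l, l.Prime → l ∣ N → l ∈ S} {hNMS : ∀ l, l.Prime → l ∣ NM → l ∈ S}
    [∀ s : Finset (Fin r), NeZero (NN (NJ p r₀ Un q Finset.univ) v s)]
    (hNNS : ∀ s, ∀ l, l.Prime → l ∣ NN (NJ p r₀ Un q Finset.univ) v s → l ∈ S) {e : TS O S}
    {B : ℕ}
    (XV' : Lev0 hpO ι hgk hNS' (thS (tl (algebraMap (ZMod p) (ResidueField O)) W) S) v A m c e B)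
    (XV : Lev0 hpO ι hgk hNS (thS (tl (algebraMap (ZMod p) (ResidueField O)) W) S) v A m c e B)
    (XM : Lev0 hpO ι hgk hNMS (thS (tl (algebraMap (ZMod p) (ResidueField O)) W) S) v A m c e B)
    (heok : haveI := XV'.hH; EOK hNNS hNS' (HQ XV'.hvN c)
      (thS (tl (algebraMap (ZMod p) (ResidueField O)) W) S) e)
    (hmod : W.IsResiduallyModularOfLevel p (baseN p r₀ Un))
    (XU : Fin t → LM hpO hgk v A m B)
    (I : ∀ j, IhQ (XU j) (LM.of XV) (q j) (Φ j)) (u : GMi (LM.of XM) (LM.of XV))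
    (u' : GMi (LM.of XV) (LM.of XV')) {Φp : 𝒢} (hΦp : (A₀ p).IsFrobeniusAt Φp p)
    (hIP : StepPH hgk (A₀ p) Φp (LM.of XV') (LM.of XV))
    {ζ P₁ : Ω} {σ₁ : 𝒢} (hdet : Det (A₀ p) p ζ P₁ σ₁)
    (hσ₁ : extW ρ (algebraMap (ZMod p) (ResidueField O)) σ₁ = 1)
    {g n₀ : ℕ} {Sx : Set ℕ}
    (X : TWn p (extW ρ (algebraMap (ZMod p) (ResidueField O))) S₀ A₀
        (L0 p (extW ρ (algebraMap (ZMod p) (ResidueField O))) σ₁) q Un r g n₀ Sx)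
    (hSf : ∀ l, l ∈ X.S ↔ l ∈ S)
    {s : TS O S} (hNJS : ∀ l, l.Prime → l ∣ NJ p r₀ Un q Finset.univ → l ∈ S)
    (hs : phiG O hNJS s = 0) :
    Nonempty (XLev O (p : O) p r g t B ty q ε
      (MvPolynomial.aeval (fun i : IS S => aW O W i) s) n) := by
  haveI := XV'.hH
  haveI := XV'.nt
  haveI := XV'.fr
  haveI := XV.hH
  haveI := XV.nt
  haveI := XV.fr
  have Dp : BData W p r₀ ρ (ResidueField O) q ty S₀ Un p := D.change (Or.inr rfl)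
  have hc4 : ¬ (p : ℤ) ∣ W.c₄ := hss p hp.out hd
  have hS₀S : ∀ l, l ∈ (S₀ : Set ℕ) → l ∈ S := fun l hl => by rw [hSS]; exact Or.inl hl
  have hpS : p ∈ S := hS₀S _ D.p_mem
  have hgood : ∀ l, l.Prime → l ∉ S → W.IsGoodPrimeFor l := fun l hl hlS =>
    D.good hl fun h => hlS (hS₀S l h)
  have hJW : JT.WRep hpO S (aW O W) ρW := jt_of_wrep hW hpS hgood
  have P := ptD_YH ι (hNS := hNS') (H := HQ XV'.hvN c) hpS hp2 XV'.hΔ e hJW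
    (fun i => residue_aW (algebraMap (ZMod p) (ResidueField O)) W i)
  obtain ⟨φ₁, t1, h1⟩ := exists_pr1 XV'.hg P
  obtain ⟨φ₂, t2, h2⟩ := exists_pr2 XV'.hg P
  have g1 : ∀ g, ((joint XV'.hg P).R hgk g).map φ₁ = XV'.hg.R hgk g :=
    R_map (joint XV'.hg P) hgk XV'.hg φ₁ t1
  have g2 : ∀ g, ((joint XV'.hg P).R hgk g).map φ₂ = ρW g :=
    R_map_of (joint XV'.hg P) hgk φ₂ ρW t2 hW.conj hW.g0
  have hvp : ∀ i, v i ≠ p := fun i e => hvS i (e ▸ D.p_mem)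
  have hvg : ∀ i, W.IsGoodPrimeFor (v i) := fun i => D.good (hv i).prime (hvS i)
  have hqv : ∀ j, ∀ i, q j ≠ v i := fun j i e => D.bad_q j (e ▸ hvg i)
  have hA : (A₀ p).LiesOverPrime p := SD.lies p hp.out
  -- local properties of the level
  have hunr : ∀ l : ℕ, l.Prime → l ∉ X.S → ∀ A' : ValuationSubring Ω, A'.LiesOverPrime l →
      ∀ σ ∈ A'.inertiaSubgroupIn ℚ, XV'.hg.R hgk σ = 1 := fun l hl hlS A' hA' σ hσ =>
    ZG.lev_unr XV' hl (fun hd => hlS ((hSf l).2 (hNS' l hl hd)))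
      (fun e => hlS ((hSf l).2 (e ▸ hpS))) hA' hσ
  have hsq : ∀ l : ℕ, l.Prime → ¬ W.IsGoodPrimeFor l → l ≠ p → ∀ A' : ValuationSubring Ω,
      A'.LiesOverPrime l → ∀ σ ∈ A'.inertiaSubgroupIn ℚ,
        (XV'.hg.R hgk σ - 1) * (XV'.hg.R hgk σ - 1) = 0 := by
    intro l hl hlg hlp A' hA' σ hσ
    obtain ⟨M, hM, hlM, hM3, hvM⟩ := Dp.split_bad hl hlg hlp (v := v) (fun i => (hv i).prime) hvg
    exact ZG.lev_unip hp2 XV' hl hlp (hN'.trans hM) hlM hM3 hvM hA' hσ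
  have L := SD.lvH_joint hmax hW XV'.hg P (Sf := X.S) (fun l hl hlS =>
    notS₀_good D hl fun h => hlS ((hSf l).2 (hS₀S l h))) hunr hsq
  obtain ⟨σ₀, Qj, F⟩ := L.H.exists_frD L.hred
  -- ordinariness
  have hpN1 : ¬ p ∣ NJ 1 r₀ Un q Finset.univ := fun hd' =>
    hp.out.one_lt.ne ((D.p_dvd_iff _).1 hd')
  have hNp : N' = p * NJ 1 r₀ Un q Finset.univ * ∏ i, v i := by
    rw [hN', NJ_mul]
  have hvNp : ∀ i, ¬ v i ∣ p * NJ 1 r₀ Un q Finset.univ := fun i hd' => by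
    rw [← NJ_mul] at hd'
    exact hvS i (Dp.hNS₀ Finset.univ _ (hv i).prime hd')
  have hord := SDat.hord_joint XV'.hg P hss hd hW hA (fun σ hσ τ hτ =>
    hord_HG hΔ hp2 h hd hc4 hgk (fun i => (hv i).prime) hinj hvNp (D.pos _).ne' hpN1 hNp XV'.hΔ
      XV'.hg hA hσ hτ)
  obtain ⟨Q, Qi, HO⟩ := ZG.exists_ordR (joint XV'.hg P) hgk hp2 hA hord
  have hxu := SDat.x_psi XV'.hg P hp2 hss hd hW hA t2 HO hΦp
  have hpN : ¬ p ∣ N := fun hd' => by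
    rw [hN, hp.out.dvd_mul] at hd'
    rcases hd' with hd' | hd'
    · exact hpN1 hd'
    · obtain ⟨i, -, hi⟩ := (hp.out.prime.dvd_finsetProd_iff _).1 hd'
      exact hvp i ((Nat.prime_dvd_prime_iff_eq hp.out (hv i).prime).1 hi).symm
  have hN3 : 3 ≤ N := by
    rw [hN]
    exact (D.three_le _).trans (Nat.le_mul_of_pos_right _
      (Finset.prod_pos fun i _ => (hv i).prime.pos))
  have hfl : FlatAll p (A₀ p) (fun g => rhoY hpO ι (HQ XV.hvN c) hNS e g) :=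
    flatAll_YH hpN hN3 hA (finite_quot hmax)
  have hredV := SD.hred (hgk := hgk) hW XV.hg
  have hRO : LC.RO (extW ρ (algebraMap (ZMod p) (ResidueField O))) p :=
    WPt.res_ro hΔ hp2 h hd hc4 _
  have hreg : ∀ y : YH (HQ XV'.hvN c) hNS' e × (Fin 2 → O), (p : O) • y = 0 → y = 0 := by
    intro y hy
    refine Prod.ext (XV'.reg _ (congrArg Prod.fst hy)) (funext fun i => ?_)
    have h3 := congrFun (congrArg Prod.snd hy) i
    exact (mul_eq_zero.1 h3).resolve_left (Nat.cast_ne_zero.2 hp.out.ne_zero)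
  have hMu : ∀ j, ∀ σ ∈ (A₀ (q j)).inertiaSubgroupIn ℚ, (LM.of XM).hg.R hgk σ = 1 :=
    fun j σ hσ => ZG.lev_unr XM (D.primeq j) (fun hd => by
      rw [hNM] at hd
      rcases ((D.primeq j).dvd_mul.1 hd) with hd | hd
      · exact absurd ((D.q_dvd_iff ∅ j).1 hd) (Finset.notMem_empty j)
      · obtain ⟨i, -, hi⟩ := ((D.primeq j).prime.dvd_finsetProd_iff _).1 hd
        exact hqv j i ((Nat.prime_dvd_prime_iff_eq (D.primeq j) (hv i).prime).1 hi))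
      (D.q_ne j) (SD.lies _ (D.primeq j)) hσ
  choose Pl hPl using fun l : IS S => exists_liesOverPrime (AlgebraicClosure ℚ) l.2.1
  choose Fr hFr using fun l : IS S => exists_isFrobeniusAt (Pl l) l.2.1 (hPl l)
  have ha2 : MvPolynomial.aeval (fun l : IS S => (ρW (Fr l)).trace) s =
      MvPolynomial.aeval (fun i : IS S => aW O W i) s := by
    congr 2
    funext l
    exact hJW.trace l l.2.1 l.2.2 (Pl l) (hPl l) (Fr l) (hFr l)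
  exact xlev_abs (hgk := hgk) (ρb := extW ρ (algebraMap (ZMod p) (ResidueField O)))
    (joint XV'.hg P) hmax hmn XV' XV XM XU I u u' hΦp hIP
    φ₁ t1 g1 φ₂ t2 g2 hreg hv
    (fun i σ hσ => hW.unr (v i) (hv i).prime (hvg i) (hvp i) (A i) (hv i).hA σ hσ)
    L.hred L.hN.two L.H F hMu SD.tr SD.rel HO hxu
    (fun π hπ => gens3 hdet hσ₁ X L F hA HO hΦp hRO hfl hredV π hπ) Fr s ha2
    (ctl_W h hp2 Dp Finset.univ hinj hvS hmc hc hm hv hN' hSS hNNS XV' heok hmod hNJS hs hPl hFr)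

end inner

end Fermat.Agent.AsmX
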