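import Fermat.Agent.AsmX.Abs
import Fermat.Agent.AsmF.StepG
import Fermat.Agent.OrdH.UCon

/-!
# The data at `p` from the relation of `U_p` and Frobenius
-/

set_option autoImplicit false
set_option linter.unusedSectionVars false
set_option linter.style.haveILetI false

open Matrix IsLocalRing
open scoped TensorProduct
open Fermat.Agent.KumG Fermat.Agent.GalRep Fermat.Agent.Places Fermat.Agent.Cheb Fermat.Agent.TW
open Fermat.Agent.Cov Fermat.Agent.JT Fermat.Agent.S59e Fermat.Agent.SSH Fermat.Agent.AsmL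
open Fermat.Agent.E2Y Fermat.Agent.OrdH Fermat.Agent.Sel
open Fermat.Agent.ZG (OrdR)

namespace Fermat.Agent.AsmX

noncomputable section

variable {O : Type} [CommRing O] [IsDomain O] [IsLocalRing O] [IsNoetherianRing O]
  [IsAdicComplete (maximalIdeal O) O] [CharZero O] {p : ℕ} [hp : Fact p.Prime]
  {hpO : (p : O) ∈ maximalIdeal O} {ι : AlgebraicClosure ℚ →+* ℂ} [Invertible (2 : O)]
  [Algebra (ZMod p) (ResidueField O)]
  {ρb : GQ →* M2 (ResidueField O)} {g₀ k₀ : GQ} {hgk : HG.IrrAt (fun g => (ρb g).trace) g₀ k₀}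
  {S : Set ℕ}
  {θ : TS O S →ₐ[O] ResidueField O} {r : ℕ} {v : Fin r → ℕ}
  {A : Fin r → ValuationSubring (AlgebraicClosure ℚ)} {m c : Fin r → ℕ} {e : TS O S} {B : ℕ}
  {M N : ℕ} [NeZero M] [NeZero N]
  {hMS : ∀ l, l.Prime → l ∣ M → l ∈ S} {hNS : ∀ l, l.Prime → l ∣ N → l ∈ S}

/-- the condition on the kernel of the transfers -/
def PrK (hgk : HG.IrrAt (fun g => (ρb g).trace) g₀ k₀) (Ap : ValuationSubring (AlgebraicClosure ℚ))
    (Φp : GQ) (XV' : LM hpO hgk v A m B) (y : XV'.Y) : Prop :=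
  ∀ Q' Qi' : Matrix (Fin 2) (Fin 2) XV'.hg.TT, OrdR XV'.hg hgk Ap Q' Qi' →
    (psV hgk XV'.hg Q' Qi' Φp ^ 2 - 1) • y = 0

section lv

variable {H : Subgroup (ZMod M)ˣ} [hH : Fact ((-1 : (ZMod M)ˣ) ∈ H)]
  {H' : Subgroup (ZMod N)ˣ} [hH' : Fact ((-1 : (ZMod N)ˣ) ∈ H')]
  [Module.Free O (YH H hMS e)] [Nontrivial (YH H hMS e)]
  [Module.Free O (YH H' hNS e)] [Nontrivial (YH H' hNS e)]

/-- (O3), for frames -/
theorem tq_of (hp2 : p ≠ 2) {ϖ : O} (hmax : maximalIdeal O = Ideal.span {ϖ})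
    {hpM : ¬ p ∣ M} {S₁ : Set ℕ} {θ₁ : TD O S M →ₐ[O] ResidueField O}
    (h₁ : HG hpO S₁ (fun g => (ρb g).trace) (psiY H hMS e) θ₁ (rhoY hpO ι H hMS e))
    {S₂ : Set ℕ} {θ₂ : TD O S N →ₐ[O] ResidueField O}
    (h : HG hpO S₂ (fun g => (ρb g).trace) (psiY H' hNS e) θ₂ (rhoY hpO ι H' hNS e))
    {h2 : Lv2 p H H'} {D : WData p M H} (hd : DegY hpO ι h2 hMS hNS e D hpM)
    (hU : URelN h2 h D hpM) {Q' Qi' : Matrix (Fin 2) (Fin 2) h.TT}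
    {Ap : ValuationSubring (AlgebraicClosure ℚ)} (HO' : OrdR h hgk Ap Q' Qi')
    (hA : Ap.LiesOverPrime p) {Φp : GQ} (hΦ : Ap.IsFrobeniusAt Φp p)
    (Q Qi : Matrix (Fin 2) (Fin 2) h₁.TT) (HO : OrdR h₁ hgk Ap Q Qi) (y : YH H hMS e) :
    TqY hMS e D hpM y = (psV hgk h₁ Q Qi Φp + (p : h₁.TT) * psV hgk h₁ Q Qi Φp⁻¹) • y := by
  obtain ⟨τ, hτ, b, hb⟩ := OrdR.exists_tau hpO hp2 hA
  have hΦD := frob_dec hΦ
  have h5 := hU.o3 h₁ hd hmax HO' hp2 hA hΦ hτ hb y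
  rw [psE_eq HO hΦD hτ hb, psE_eq HO (inv_mem hΦD) hτ hb, map_natCast] at h5
  exact h5

end lv

/-- **The data at `p`.** -/
theorem stepPH_of (hp2 : p ≠ 2) {ϖ : O} (hmax : maximalIdeal O = Ideal.span {ϖ})
    (hpM : ¬ p ∣ M)
    (X : Lev0 hpO ι hgk hMS θ v A m c e B) (X' : Lev0 hpO ι hgk hNS θ v A m c e B)
    {Ap : ValuationSubring (AlgebraicClosure ℚ)} (hA : Ap.LiesOverPrime p) {Φp : GQ}
    (hΦ : Ap.IsFrobeniusAt Φp p) :
    haveI := X.hH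
    haveI := X.nt
    haveI := X.fr
    haveI := X'.hH
    haveI := X'.nt
    haveI := X'.fr
    ∀ (h2 : Lv2 p (HQ X.hvN c) (HQ X'.hvN c)) (D : WData p M (HQ X.hvN c))
      (_ : DegY hpO ι h2 hMS hNS e D hpM) (_ : URelN h2 X'.hg D hpM)
      (Q' Qi' : Matrix (Fin 2) (Fin 2) X'.hg.TT) (_ : OrdR X'.hg hgk Ap Q' Qi'),
      StepPH hgk Ap Φp (LM.of X') (LM.of X) := by
  haveI := X.hH
  haveI := X.nt
  haveI := X.fr
  haveI := X'.hH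
  haveI := X'.nt
  haveI := X'.fr
  intro h2 D hd hU Q' Qi' HO' Q Qi HO
  have hT := tq_of hp2 hmax X.hg X'.hg hd hU HO' hA hΦ
  have hO2 : ∀ y : YH (HQ X'.hvN c) hNS e, s1N h2 hMS hNS e D hpM y = 0 →
      s2N h2 hMS hNS e D hpM y = 0 → PrK hgk Ap Φp (LM.of X') y :=
    fun y h3 h4 Q'' Qi'' HO'' => hU.o2 HO'' hp2 hA hΦ h3 h4
  obtain ⟨I, hI⟩ := AsmF.exists_ihd_of_deg X X' hpM (T := psV hgk (LM.of X).hg Q Qi Φp +
    p * psV hgk (LM.of X).hg Q Qi Φp⁻¹) (Pr := PrK hgk Ap Φp (LM.of X')) h2 D hd (hT Q Qi HO) hO2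
  exact ⟨I, fun Q'' Qi'' HO'' y h3 h4 => hI y h3 h4 Q'' Qi'' HO''⟩

end

end Fermat.Agent.AsmX
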