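import Fermat.Agent.AsmX.PH
import Fermat.Agent.AsmX.Inner3
import Fermat.Agent.AsmF.FamW3
import Fermat.Agent.CoreW.StepA
import Fermat.Agent.CoreW.UOneP

/-!
# The inner theorem, case III
-/

set_option autoImplicit false
set_option linter.unusedSectionVars false
set_option linter.style.haveILetI false

noncomputable section

namespace Fermat.Agent.AsmX

open Matrix IsLocalRing Fermat.Agent.GalRep Fermat.Agent.TW Fermat.Agent.Places Fermat.Agent.Flat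
open Fermat.Agent.Cheb Fermat.Agent.KumG Fermat.Agent.MD Fermat.Agent.Sel Fermat.Agent.ImW
open Fermat.Agent.WM Fermat.Agent.StR Fermat.Agent.JT Fermat.Agent.AsmL Fermat.Agent.E2N
open Fermat.Agent.CoreW Fermat.Agent.S59e Fermat.Agent.SSH Fermat.Agent.OrdH
open Fermat.Agent.AsmF (HAux haux_W bnd exists_famW3 mod_p exists_deg_fam exists_gmi_of_deg)
open Fermat.Agent.ZG (NData SDat LvH FrD NmH PhiJ parS TWn OrdR Det L0)

local notation "Ω" => AlgebraicClosure ℚ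

local notation "𝒢" => (AlgebraicClosure ℚ) ≃ₐ[ℚ] (AlgebraicClosure ℚ)

variable {W : WeierstrassCurve ℤ} {p : ℕ} [hp : Fact p.Prime] {ρ : 𝒢 →* M2 (ZMod p)}

section degp

variable {r₀ : ℕ} {O : Type} [CommRing O] [IsDomain O] [IsDiscreteValuationRing O]
  [IsAdicComplete (maximalIdeal O) O] [CharZero O] [Finite (ResidueField O)]
  {hpO : (p : O) ∈ maximalIdeal O}
  {ι : AlgebraicClosure ℚ →+* ℂ} [Invertible (2 : O)] [Algebra (ZMod p) (ResidueField O)]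
  {g₀ k₀ : 𝒢}
  {hgk : HG.IrrAt (fun g => (extW ρ (algebraMap (ZMod p) (ResidueField O)) g).trace) g₀ k₀}
  {t : ℕ} {q : Fin t → ℕ} {ty : Fin t → Ty} {S₀ Un : Finset ℕ}

local notation "tlW" => tl (algebraMap (ZMod p) (ResidueField O)) W

/-- the degeneracy maps at `p` -/
theorem exists_degP (h : ResW W p ρ) (hp2 : p ≠ 2)
    (D : BData W p r₀ ρ (ResidueField O) q ty S₀ Un 1) (haux : HAux tlW)
    {r : ℕ} {v : Fin r → ℕ} {A : Fin r → ValuationSubring (AlgebraicClosure ℚ)}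
    {m c : Fin r → ℕ} {S : Set ℕ} (hSS : S = (S₀ : Set ℕ) ∪ Set.range v)
    {M N : ℕ} [NeZero M] [NeZero N] (hM : M = NJ 1 r₀ Un q Finset.univ * ∏ i, v i)
    (hN : N = NJ p r₀ Un q Finset.univ * ∏ i, v i) (hMN : N = p * M) (hpM : ¬ p ∣ M)
    (hM3 : 3 ≤ M)
    [∀ s : Finset (Fin r), NeZero (NN (NJ 1 r₀ Un q Finset.univ) v s)]
    [∀ s : Finset (Fin r), NeZero (NN (NJ p r₀ Un q Finset.univ) v s)]
    {hMS : ∀ l, l.Prime → l ∣ M → l ∈ S} {hNS : ∀ l, l.Prime → l ∣ N → l ∈ S}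
    {hMMS : ∀ s, ∀ l, l.Prime → l ∣ NN (NJ 1 r₀ Un q Finset.univ) v s → l ∈ S}
    {hNNS : ∀ s, ∀ l, l.Prime → l ∣ NN (NJ p r₀ Un q Finset.univ) v s → l ∈ S}
    {e : TS O S} {B : ℕ} (X : Lev0 hpO ι hgk hMS (thS tlW S) v A m c e B)
    (X' : Lev0 hpO ι hgk hNS (thS tlW S) v A m c e B)
    (hX : haveI := X.hH; EOK hMMS hMS (HQ X.hvN c) (thS tlW S) e)
    (hX' : haveI := X'.hH; EOK hNNS hNS (HQ X'.hvN c) (thS tlW S) e) :
    haveI := X.hH
    haveI := X'.hH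
    ∃ (h2 : Lv2 p (HQ X.hvN c) (HQ X'.hvN c)) (D : WData p M (HQ X.hvN c)),
      DegY hpO ι h2 hMS hNS e D hpM :=
  exists_deg_fam hp2 (Finset.finite_toSet S₀) haux
    (WM.isPseudoRep _ ρ) (WM.isLocConst_tr h _)
    (fun l hl hlS A hA τ hτ => hfr h _ D.p_mem (fun _ hl hS => D.good hl hS) l hl hlS A hA τ hτ)
    (WM.exists_com h _ hp2) hSS hM3 hM hN hMN hpM X X' hX hX'

end degp

set_option maxHeartbeats 1000000 in
/-- **Case III.** -/
theorem stepIII (hΔ : W.Δ ≠ 0) (hss : W.IsSemistableModel) (hp2 : p ≠ 2)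
    (hirr : W.ModRepIsIrreducible p) (h : ResW W p ρ) (hR : URelLev W p ρ) : StepIII W p ρ := by
  intro O _ _ _ _ _ _ hpO hmax ι _ _ g₀ k₀ hgk ρW hW r₀ t q ty S₀ Un D hmod ε A₀ Φ vv SD hd ζ P σ₁
    hdet hσ₁ r g hTW _ s hs
  classical
  have Dp : BData W p r₀ ρ (ResidueField O) q ty S₀ Un p := D.change (Or.inr rfl)
  haveI hNJ0 : ∀ J, NeZero (NJ 1 r₀ Un q J) := D.neZero
  haveI hNJp : ∀ J, NeZero (NJ p r₀ Un q J) := Dp.neZero
  refine ⟨bnd O 1 r₀ Un q r + bnd O p r₀ Un q r, fun n => ?_⟩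
  obtain ⟨X⟩ := hTW (n + 1) (by omega) {l | ∃ i ∈ s.vars, (i : ℕ) = l}
    ((s.vars.finite_toSet.image (fun i : IS (S₀ : Set ℕ) => (i : ℕ))).subset (by
      rintro l ⟨i, hi, rfl⟩
      exact ⟨i, hi, rfl⟩))
  have hvS : ∀ i, X.qv i ∉ (S₀ : Set ℕ) := fun i hi => X.notS₀ i hi
  have hvpr : ∀ i, (X.qv i).Prime := fun i => (X.tw i).prime
  have hvg : ∀ i, W.IsGoodPrimeFor (X.qv i) ∧ X.qv i ≠ p := fun i =>
    notS₀_good D (hvpr i) (hvS i)
  have hv : ∀ i, TWp p (fun g => (extW ρ (algebraMap (ZMod p) (ResidueField O)) g).trace)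
      (X.qv i) (X.A i) (X.Φ i) := fun i =>
    TWp_of h (by omega : 1 ≤ n + 1) (SD.nd.num.split _) hpO (X.tw i) (hvg i).1 (hvg i).2
  choose m c hmc hc hm using fun i => exists_mc D (hvpr i) (X.tw i).dvd
  have hm1 : ∀ i, 1 ≤ m i := fun i => by have := hm i; omega
  let S : Set ℕ := (S₀ : Set ℕ) ∪ Set.range X.qv
  let N : Finset (Fin t) → ℕ := fun J => NJ 1 r₀ Un q J * ∏ i, X.qv i
  let N' : Finset (Fin t) → ℕ := fun J => NJ p r₀ Un q J * ∏ i, X.qv i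
  have hprod : ∏ i, X.qv i ≠ 0 := Finset.prod_ne_zero_iff.2 fun i _ => (hvpr i).ne_zero
  haveI hN0 : ∀ J, NeZero (N J) := fun J => ⟨mul_ne_zero (D.pos J).ne' hprod⟩
  haveI hN0' : ∀ J, NeZero (N' J) := fun J => ⟨mul_ne_zero (Dp.pos J).ne' hprod⟩
  haveI hNN0 : ∀ J (s : Finset (Fin r)), NeZero (NN (NJ 1 r₀ Un q J) X.qv s) := fun J s =>
    ⟨mul_ne_zero (D.pos J).ne' (Finset.prod_ne_zero_iff.2 fun i _ => (hvpr i).ne_zero)⟩
  haveI hNN0' : ∀ J (s : Finset (Fin r)), NeZero (NN (NJ p r₀ Un q J) X.qv s) := fun J s =>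
    ⟨mul_ne_zero (Dp.pos J).ne' (Finset.prod_ne_zero_iff.2 fun i _ => (hvpr i).ne_zero)⟩
  have hNS : ∀ J, ∀ l, l.Prime → l ∣ N J → l ∈ S := fun J l hl hd => D.hNS' hvpr l hl hd
  have hNS' : ∀ J, ∀ l, l.Prime → l ∣ N' J → l ∈ S := fun J l hl hd => Dp.hNS' hvpr l hl hd
  have hNNS : ∀ J s, ∀ l, l.Prime → l ∣ NN (NJ 1 r₀ Un q J) X.qv s → l ∈ S := fun J s l hl hd =>
    D.hNS hvpr s l hl hd
  have hNNS' : ∀ J s, ∀ l, l.Prime → l ∣ NN (NJ p r₀ Un q J) X.qv s → l ∈ S := fun J s l hl hd =>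
    Dp.hNS hvpr s l hl hd
  have hvN : ∀ J i, X.qv i ∣ N J := fun J i =>
    (Finset.dvd_prod_of_mem X.qv (Finset.mem_univ i)).trans (dvd_mul_left _ _)
  have hvN' : ∀ J i, X.qv i ∣ N' J := fun J i =>
    (Finset.dvd_prod_of_mem X.qv (Finset.mem_univ i)).trans (dvd_mul_left _ _)
  have hvN₀ : ∀ J i, ¬ X.qv i ∣ NJ 1 r₀ Un q J := fun J i hd => hvS i (D.hNS₀ J _ (hvpr i) hd)
  have hvN₀' : ∀ J i, ¬ X.qv i ∣ NJ p r₀ Un q J := fun J i hd => hvS i (Dp.hNS₀ J _ (hvpr i) hd)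
  haveI hH : ∀ J, Fact ((-1 : (ZMod (N J))ˣ) ∈ HQ (hvN J) c) := fun J => by
    have hw : TWN p (NJ 1 r₀ Un q J) X.qv (N J) m c :=
      ⟨hp.out, hp2, hvpr, X.inj, hvN₀ J, rfl, hmc, hc, hm1⟩
    exact ⟨hw.neg_one_mem⟩
  haveI hH' : ∀ J, Fact ((-1 : (ZMod (N' J))ˣ) ∈ HQ (hvN' J) c) := fun J => by
    have hw : TWN p (NJ p r₀ Un q J) X.qv (N' J) m c :=
      ⟨hp.out, hp2, hvpr, X.inj, hvN₀' J, rfl, hmc, hc, hm1⟩
    exact ⟨hw.neg_one_mem⟩
  obtain ⟨e, Y, Y', he, he', ⟨-, hI, hu⟩, -⟩ := exists_famW3 h hp2 hpO ι hgk D hmod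
    (haux_W hp2 hΔ hirr _) X.inj hvS hmc hc hm1 hv
    (S := S) rfl (N := N) (N' := N') (fun J => rfl) (fun J => rfl) hNS hNS' hNNS hNNS' hvN hvN'
    (fun j => SD.lies _ (D.primeq j)) SD.frob
  obtain ⟨u⟩ := hu Finset.univ
  have I := fun j => (hI j).some
  -- the step at `p`
  have hNN' : N' Finset.univ = p * N Finset.univ := by
    change NJ p r₀ Un q Finset.univ * ∏ i, X.qv i = p * (NJ 1 r₀ Un q Finset.univ * ∏ i, X.qv i)
    rw [NJ_mul, mul_assoc]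
  have hpN1 : ¬ p ∣ NJ 1 r₀ Un q Finset.univ := fun hd' =>
    hp.out.one_lt.ne ((D.p_dvd_iff _).1 hd')
  have hpM : ¬ p ∣ N Finset.univ := fun hd' => by
    rcases (hp.out.dvd_mul.1 hd') with hd' | hd'
    · exact hpN1 hd'
    · obtain ⟨i, -, hi⟩ := (hp.out.prime.dvd_finsetProd_iff _).1 hd'
      exact (hvg i).2 ((Nat.prime_dvd_prime_iff_eq hp.out (hvpr i)).1 hi).symm
  have hM3 : 3 ≤ N Finset.univ :=
    (D.three_le _).trans (Nat.le_mul_of_pos_right _ (Nat.pos_of_ne_zero hprod))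
  have hdeg := exists_degP h hp2 D (haux_W hp2 hΔ hirr _) (S := S) rfl (M := N Finset.univ)
    (N := N' Finset.univ) rfl rfl hNN' hpM hM3 (Y Finset.univ) (Y' Finset.univ)
    (he Finset.univ) (he' Finset.univ)
  obtain ⟨u'⟩ := exists_gmi_of_deg (Y Finset.univ) (Y' Finset.univ) hpM hdeg
  obtain ⟨h2, D', hdY⟩ := hdeg
  have hA : (A₀ p).LiesOverPrime p := SD.lies p hp.out
  obtain ⟨Φp, hΦp⟩ := exists_isFrobeniusAt (A₀ p) hp.out hA
  have hPH : StepPH hgk (A₀ p) Φp (LM.of (Y' Finset.univ)) (LM.of (Y Finset.univ)) := by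
    haveI := (Y Finset.univ).hH
    haveI := (Y Finset.univ).nt
    haveI := (Y Finset.univ).fr
    haveI := (Y' Finset.univ).hH
    haveI := (Y' Finset.univ).nt
    haveI := (Y' Finset.univ).fr
    have hU := hR O hpO hmax ι g₀ k₀ hgk r₀ t q ty S₀ Un Dp hd Finset.univ r X.qv X.A X.Φ X.inj
      hvS m c hmc hc hm1 hv (N' Finset.univ) rfl S rfl (hNS' Finset.univ) e _ (Y' Finset.univ)
      (N Finset.univ) rfl (Y Finset.univ).hvN hpM h2 D'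
    have hc4 : ¬ (p : ℤ) ∣ W.c₄ := hss p hp.out hd
    have hNp : N' Finset.univ = p * NJ 1 r₀ Un q Finset.univ * ∏ i, X.qv i := by
      change NJ p r₀ Un q Finset.univ * ∏ i, X.qv i = _
      rw [NJ_mul]
    have hvNp : ∀ i, ¬ X.qv i ∣ p * NJ 1 r₀ Un q Finset.univ := fun i hd' => by
      rw [← NJ_mul] at hd'
      exact hvN₀' Finset.univ i hd'
    obtain ⟨Q, Qi, HO⟩ := ZG.exists_ordR (Y' Finset.univ).hg hgk hp2 hA
      (fun σ hσ τ hτ => hord_HG hΔ hp2 h hd hc4 hgk hvpr X.inj hvNp (D.pos _).ne' hpN1 hNp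
        (Y' Finset.univ).hΔ (Y' Finset.univ).hg hA hσ hτ)
    exact stepPH_of hp2 hmax hpM (Y Finset.univ) (Y' Finset.univ) hA hΦp h2 D' hdY hU Q Qi HO
  -- the Hecke operator
  obtain ⟨s', hs'⟩ := exists_rename (S₀ := (S₀ : Set ℕ)) (S := S) Set.subset_union_left s
    (fun l hl hlS => by
      rcases hlS with hlS | ⟨i, hi⟩
      · exact l.2.2 hlS
      · exact X.notS' i ⟨l, hl, hi.symm⟩)
  have hNJS : ∀ l, l.Prime → l ∣ NJ p r₀ Un q Finset.univ → l ∈ S := fun l hl hd =>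
    Or.inl (Dp.hNS₀ Finset.univ l hl hd)
  have hs1 : phiG O hNJS s' = 0 := by
    rw [← phiG_rename (fun l : IS S => (⟨l.1, l.2.1, fun h => l.2.2 (Or.inl h)⟩ :
      IS (S₀ : Set ℕ))) (fun l => rfl) (Dp.hNS₀ Finset.univ) hNJS s', ← hs']
    exact hs
  have hs2 : MvPolynomial.aeval (fun i : IS (S₀ : Set ℕ) => aW O W i) s =
      MvPolynomial.aeval (fun i : IS S => aW O W i) s' := by
    rw [hs', MvPolynomial.aeval_rename]
    rfl
  rw [hs2]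
  exact xlev_inner hΔ hss hd h hp2 hmax hW D SD X.inj hvS hmc hc hm1
    (fun i => by have := hm i; omega) hv (N' := N' Finset.univ) (N := N Finset.univ) (NM := N ∅)
    rfl rfl rfl (S := S) rfl (hNNS' Finset.univ) (Y' Finset.univ) (Y Finset.univ) (Y ∅)
    (he' Finset.univ) (mod_p D hmod) _ I u u' hΦp hPH hdet hσ₁ X (fun l => by
      rw [X.mem]
      rfl) hNJS hs1

end Fermat.Agent.AsmX
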