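import Fermat.Agent.AsmX.Deg
import Fermat.Agent.AsmL.Jt

/-!
# The data at a level in the peu ramifiée case
-/

set_option autoImplicit false
set_option linter.unusedSectionVars false
set_option linter.style.haveILetI false

open IsLocalRing
open Fermat.Agent.GalRep Fermat.Agent.Places Fermat.Agent.Cheb Fermat.Agent.TW Fermat.Agent.JT
open Fermat.Agent.StR Fermat.Agent.ZG Fermat.Agent.Sel Fermat.Agent.E2N Fermat.Agent.AsmL

namespace Fermat.Agent.AsmX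

noncomputable section

local notation "Ω" => AlgebraicClosure ℚ

variable {O : Type} [CommRing O] [IsDomain O] [IsLocalRing O] [IsNoetherianRing O]
  [IsAdicComplete (maximalIdeal O) O] {p : ℕ} [hp : Fact p.Prime]
  {hpO : (p : O) ∈ maximalIdeal O} [Invertible (2 : O)]
  {ρb : GQ →* M2 (ResidueField O)} {g₀ k₀ : GQ} {hgk : HG.IrrAt (fun g => (ρb g).trace) g₀ k₀}
  {ϖ : O} {r g t B : ℕ} {ty : Fin t → Ty} {q : Fin t → ℕ} {ε : Fin t → ℤ} {n : ℕ}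
  {v : Fin r → ℕ} {Av : Fin r → ValuationSubring Ω} {m : Fin r → ℕ}

/-- change of the ring in coordinates -/
def crdComp {X : LM hpO hgk v Av m B} {A : Type} [CommRing A] [Algebra O A]
    (π : A →ₐ[O] X.hg.TT) {γ : Fin r → A} {γ' : Fin r → X.hg.TT} (hγ : ∀ i, π (γ i) = γ' i)
    (C : Crd (O := O) (GR.δ O fun i => p ^ m i) (acM X.hg (AlgHom.id O X.hg.TT)) γ') :
    Crd (O := O) (GR.δ O fun i => p ^ m i) (acM X.hg π) γ where
  d := C.d
  E := C.E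
  f := C.f.comp π
  hE a x := C.hE (π a) x
  hγ i := by rw [AlgHom.comp_apply, hγ, C.hγ]

variable {T' Y' : Type} [CommRing T'] [Algebra O T'] [AddCommGroup Y'] [Module O Y']
  [Module.Finite O Y'] [Module.Free O Y'] [Nontrivial Y'] {S' : Set ℕ}
  {ψ' : T' →ₐ[O] Module.End O Y'} {θ' : T' →ₐ[O] ResidueField O} {ρ' : GQ →* Module.End O Y'}
  (hj : HG hpO S' (fun g => (ρb g).trace) ψ' θ' ρ')

set_option maxHeartbeats 1000000 in
include hgk in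
/-- **XLev from a trace ring with a point.** `XV'` is the ordinary world, `XV` the flat world. -/
theorem exists_XLev_of (hmax : maximalIdeal O = Ideal.span {ϖ}) (hm : ∀ i, n ≤ m i)
    (XV' XV : LM hpO hgk v Av m B) (XU : Fin t → LM hpO hgk v Av m B) (XM : LM hpO hgk v Av m B)
    {Fr : Fin t → GQ} (I : ∀ j, IhQ (XU j) XV (q j) (Fr j)) (u : GMi XM XV)
    {T : XV.hg.TT} (IP : IhD XV XV' p T)
    (φ₁ : hj.TT →ₐ[O] XV'.hg.TT) (t1 : ∀ g, φ₁ (hj.tt g) = XV'.hg.tt g)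
    (g1 : ∀ g, (hj.R hgk g).map (φ₁ : hj.TT →+* XV'.hg.TT) = XV'.hg.R hgk g)
    {ρW : GQ →* M2 O} (φ₂ : hj.TT →ₐ[O] O)
    (g2 : ∀ g, (hj.R hgk g).map (φ₂ : hj.TT →+* O) = ρW g)
    (π : hj.TT →ₐ[O] XV.hg.TT) (tπ : ∀ g, π (hj.tt g) = XV.hg.tt g)
    (gπ : ∀ g, (hj.R hgk g).map (π : hj.TT →+* XV.hg.TT) = XV.hg.R hgk g)
    (hreg : ∀ y : Y', (p : O) • y = 0 → y = 0)
    {Fv : Fin r → GQ} (hv : ∀ i, TWp p (fun g => (ρb g).trace) (v i) (Av i) (Fv i))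
    (hWv : ∀ i, ∀ σ ∈ (Av i).inertiaSubgroupIn ℚ, ρW σ = 1)
    {A₀ : ℕ → ValuationSubring Ω} {vv : Fin t → Fin 2 → O} {σ₀ : Fin t → GQ}
    {Qj : Fin t → Matrix (Fin 2) (Fin 2) hj.TT}
    (hred : redR (hj.R hgk) hj.theta.toRingHom = ρb)
    (h2k : (2 : ResidueField O) ≠ 0)
    (H : NmH hj hgk q ty ε A₀ Fr vv)
    (F : FrD hj hgk q ty A₀ Fr vv σ₀ Qj)
    (hMu : ∀ j, ∀ σ ∈ (A₀ (q j)).inertiaSubgroupIn ℚ, XM.hg.R hgk σ = 1)
    (hWt : ∀ j, (ρW (Fr j)).trace = ε j * (q j + 1))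
    (hWs : ∀ j, ∀ σ ∈ (A₀ (q j)).inertiaSubgroupIn ℚ,
      (ρW σ - 1) * (ρW (Fr j) - (ε j : O) • (1 : Matrix (Fin 2) (Fin 2) O)) = 0)
    {ψ ψi : hj.TT} (hψ : ψ * ψi = 1) (hT : π (ψ + p * ψi) = T)
    (hnew : ∀ y, IP.s1.u y = 0 → IP.s2.u y = 0 → φ₁ (ψ ^ 2 - 1) • y = 0)
    (hψm : ψ ^ 2 - 1 ∈ maximalIdeal hj.TT) (hxu : φ₂ (ψ ^ 2 - 1) = 0)
    {w : hj.TT} (hw : w ∈ maximalIdeal hj.TT)
    (z : Fin g → hj.TT) (hz : ∀ i, z i ∈ maximalIdeal hj.TT)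
    (hgen' : maximalIdeal hj.TT ≤
      Ideal.span {algebraMap O hj.TT ϖ} ⊔
      Ideal.span (Set.range (Fin.cons (ψ ^ 2 - 1) z : Fin (g + 1) → hj.TT)) ⊔
      Ideal.span {w} ⊔
      Ideal.span (parS q ty ε (PhiJ hj hgk ty Fr vv Qj)
        (NJ hj hgk ty Fr vv σ₀ Qj)) ⊔ maximalIdeal hj.TT ^ 2)
    (hgen : maximalIdeal XV.hg.TT ≤
      Ideal.span {algebraMap O XV.hg.TT ϖ} ⊔
      Ideal.span (Set.range fun i => π ((Fin.cons (ψ ^ 2 - 1) z : Fin (g + 1) → hj.TT) i)) ⊔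
      Ideal.span (parS q ty ε (fun j => (PhiJ hj hgk ty Fr vv Qj j).map π)
        (fun j => (NJ hj hgk ty Fr vv σ₀ Qj j).map π)) ⊔ maximalIdeal XV.hg.TT ^ 2)
    (a : hj.TT) {c : O} (ha : φ₂ a = c)
    (hctl : ∀ L : ∀ i, LocW p (v i) (Av i) (XV'.hg.R hgk), ∀ y : XV'.Y,
      (φ₁ a) • y ∈ augS XV'.Y (fun i => (L i).η (L i).σ₀)) :
    Nonempty (XLev O ϖ p r g t B ty q ε c n) := by
  haveI : IsLocalRing (GR O fun i => p ^ m i) := GR.isLocalRing hpO fun i => ⟨m i, rfl⟩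
  -- the maps to the lower levels
  have eU : ∀ j, ∃ ψ : XV.hg.TT →ₐ[O] (XU j).hg.TT, (∀ g, ψ (XV.hg.tt g) = (XU j).hg.tt g) ∧
      ∀ g, (XV.hg.R hgk g).map ψ = (XU j).hg.R hgk g := fun j =>
    (I j).toIhD.gmi.exists_TT (hgk := hgk) hmax
  choose ψU hU1 hU2 using eU
  obtain ⟨ψM, hM1, hM2⟩ := u.exists_TT hmax
  -- the local data at the Taylor–Wiles primes
  have eL : ∀ i, Nonempty (LocW p (v i) (Av i) (hj.R hgk)) := fun i =>
    ⟨(hj.exists_locW hgk (hv i) hreg).choose⟩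
  have LA : ∀ i, LocW p (v i) (Av i) (hj.R hgk) := fun i => (eL i).some
  have resA' : ∀ a : hj.TT, ∃ o : O, a - algebraMap O hj.TT o ∈ maximalIdeal hj.TT := fun a => by
    obtain ⟨o, ho⟩ := IsLocalRing.residue_surjective (hj.theta a)
    refine ⟨o, ?_⟩
    rw [← hj.theta_eq_zero, map_sub, AlgHom.commutes, sub_eq_zero]
    exact ho.symm
  have resA : ∀ a : XV.hg.TT, ∃ o : O, a - algebraMap O XV.hg.TT o ∈ maximalIdeal XV.hg.TT :=
    fun a => by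
    obtain ⟨o, ho⟩ := IsLocalRing.residue_surjective (XV.hg.theta a)
    refine ⟨o, ?_⟩
    rw [← XV.hg.theta_eq_zero, map_sub, AlgHom.commutes, sub_eq_zero]
    exact ho.symm
  have hπm : ∀ x ∈ maximalIdeal hj.TT, π x ∈ maximalIdeal XV.hg.TT := fun x hx =>
    (mem_max_map hj XV.hg π tπ).2 hx
  let LF : ∀ i, LocW p (v i) (Av i) (XV.hg.R hgk) := fun i =>
    LocW.map (LA i) (π : hj.TT →+* XV.hg.TT) gπ
  -- coordinates
  obtain ⟨CV, hdV0, hdV⟩ := XV.exists_crd (AlgHom.id O XV.hg.TT) (RA := XV.hg.R hgk)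
    (fun g => by ext i j; rfl) LF
  choose CU hdU0 hdU using fun j => (XU j).exists_crd (ψU j) (hU2 j) LF
  obtain ⟨CM, hdM0, hdM⟩ := XM.exists_crd ψM hM2 LF
  obtain ⟨CV', hdV0', hdV'⟩ := XV'.exists_crd φ₁ g1 LA
  choose J G1 G2 hnewJ using fun j => (I j).exists_mats (A := XV.hg.TT) (tA := XV.hg.tt)
    XV.hg.adjoin_tt (hU1 j) (fun g => rfl) (CU j) CV
  obtain ⟨j0, l0, hj0, hl0⟩ := u.exists_mats (A := XV.hg.TT) (tA := XV.hg.tt)
    XV.hg.adjoin_tt hM1 (fun g => rfl) CM CV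
  let CVp : Crd (O := O) (GR.δ O fun i => p ^ m i) (acM XV.hg π)
      (fun i => (LA i).η (LA i).σ₀) := crdComp π (fun i => rfl) CV
  have hpA : (p : hj.TT) ∈ maximalIdeal hj.TT := hj.p_mem
  obtain ⟨K, K1, K2, hK⟩ := exists_mats_p (A := hj.TT) (tA := hj.tt) hj.adjoin_tt tπ t1 CVp CV'
    IP hpA hψ hT hnew
  -- the Galois data
  set Ph := PhiJ hj hgk ty Fr vv Qj with hPh
  set Nj := NJ hj hgk ty Fr vv σ₀ Qj with hNj
  have qd' : ∀ j, QD (ty j) (q j) (ε j) (Ph j) (Nj j) := fun j => H.qd F hred h2k j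
  have qd : ∀ j, QD (ty j) (q j) (ε j) ((Ph j).map π) ((Nj j).map π) := fun j =>
    (qd' j).mapR (π : hj.TT →+* XV.hg.TT) hπm
  have htr : ∀ j, (Ph j).trace = hj.tt (Fr j) := fun j => by
    rw [hPh, trace_PhiJ F, hj.R_trace]
  have htr' : ∀ j, ((Ph j).map π).trace = XV.hg.tt (Fr j) := fun j =>
    (map_traceM (π : hj.TT →+* XV.hg.TT) (Ph j)).trans (by
      rw [htr]
      exact tπ (Fr j))
  have hz' : ∀ i, (Fin.cons (ψ ^ 2 - 1) z : Fin (g + 1) → hj.TT) i ∈ maximalIdeal hj.TT :=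
    fun i => Fin.cases hψm (fun j => hz j) i
  let J' : ∀ j, IhM CV.f (CU j).f (q j) ((Ph j).map π).trace := fun j =>
    { J j with hsi := by rw [htr' j]; exact (J j).hsi }
  have hNM : ∀ j a b, CM.f ((Nj j).map π a b) = 0 := fun j a b => by
    refine CM.ext_mulVec fun y => ?_
    rw [← CM.hE, Matrix.zero_mulVec]
    have h5 : ψM (π (Nj j a b)) = 0 := by
      refine map_NJ (x := ((ψM.comp π : hj.TT →ₐ[O] XM.hg.TT) : hj.TT →+* XM.hg.TT)) ?_ a b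
      have h3 : (hj.R hgk (σ₀ j)).map (ψM.comp π) = XM.hg.R hgk (σ₀ j) := by
        rw [← hM2, ← gπ, Matrix.map_map]
        rfl
      rw [hMu j (σ₀ j) (F.hσ j)] at h3
      exact h3
    have h6 : acM XM.hg ψM ((Nj j).map π a b) y = 0 := by
      rw [acM_apply, Matrix.map_apply, h5, zero_smul]
    rw [h6, map_zero]
  have hxΦ : ∀ j, φ₂ (Ph j).trace = ε j * (q j + 1) := fun j =>
    (map_trace_PhiJ (x := ((φ₂ : hj.TT →ₐ[O] O) : hj.TT →+* O)) F j (g2 (Fr j))).trans (hWt j)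
  have hxN : ∀ j, (Nj j * (Ph j - (ε j : hj.TT) • (1 : Matrix (Fin 2) (Fin 2) hj.TT))).map φ₂ =
      0 := fun j => by
    refine map_rel_J (x := ((φ₂ : hj.TT →ₐ[O] O) : hj.TT →+* O)) F j (ε j) ?_
    rw [g2, g2]
    exact hWs j (σ₀ j) (F.hσ j)
  have hxd : ∀ i, φ₂ ((LA i).η (LA i).σ₀) = 1 := fun i => by
    refine LocW.eta_eq_one (LA i) (φ₂ : hj.TT →+* O) ?_
    rw [g2]
    exact hWv i _ (LA i).mem
  have hsi := K.hsi
  have e1 : CVp.f ((p : hj.TT) + 1) = CV.f ((p : XV.hg.TT) + 1) := by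
    change CV.f (π ((p : hj.TT) + 1)) = _
    rw [map_add, map_natCast, map_one]
  rw [e1] at hsi
  have h7 := T_mem (ψ := π ψ) (ψi := π ψi) (by rw [← map_mul, hψ, map_one]) (p : XV.hg.TT)
  have h8 : π (ψ + p * ψi) = π ψ + (p : XV.hg.TT) * π ψi := by
    rw [map_add, map_mul, map_natCast]
  have h9 : π ((Fin.cons (ψ ^ 2 - 1) z : Fin (g + 1) → hj.TT) 0) = π ψ ^ 2 - 1 := by
    change π (ψ ^ 2 - 1) = _
    rw [map_sub, map_pow, map_one]
  have h10 : π (ψ + p * ψi) ^ 2 - ((p : XV.hg.TT) + 1) ^ 2 ∈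
      Ideal.span {π ((Fin.cons (ψ ^ 2 - 1) z : Fin (g + 1) → hj.TT) 0)} := by
    rw [h8, h9]
    exact h7
  refine ⟨{ mkMLev (ty := ty) (q := q) (ε := ε) (ϖ := ϖ) (B := B) resA m hm
      (fun j => (Ph j).map π) (fun j => (Nj j).map π) qd
      (fun i => π ((Fin.cons (ψ ^ 2 - 1) z : Fin (g + 1) → hj.TT) i)) (fun i => hπm _ (hz' i)) hgen
      CV (by omega) CU (fun j => by
        have := hdU j
        omega) CM ⟨hdM0, by omega⟩ J' (fun j => ⟨G1 j, G2 j,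
        (congrArg (fun T : XV.hg.TT => CV.f ((T ^ 2 - ((q j : XV.hg.TT) + 1) ^ 2) ^ 3))
          (htr' j)).trans (hnewJ j)⟩) j0 hj0 l0 hl0 hNM with
      A' := hj.TT
      resA' := resA'
      π := π
      Φ' := Ph
      N' := Nj
      hΦ' := fun j => rfl
      hN' := fun j => rfl
      qd' := qd'
      z' := Fin.cons (ψ ^ 2 - 1) z
      hz' := fun i => rfl
      w := w
      hw := hw
      hgen' := hgen'
      d' := CV'.d
      hd' := by omega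
      f' := CV'.f
      I1 := K.i1
      I2 := K.i2
      hI1 := K.hi1
      hI2 := K.hi2
      L1 := K.l1
      L2 := K.l2
      hL := K.hl
      S1 := K.s1
      S2 := K.s2
      hS1 := K.hs1
      hS2 := K.hs2
      K1 := K.k1
      K2 := K.k2
      hK := K.hk
      T := π (ψ + p * ψi)
      hSI := hsi
      hT := h10
      new' := ⟨K1, K2, hK⟩
      x := φ₂
      hxu := hxu
      hxΦ := hxΦ
      hxN := hxN
      dia' := fun i => ⟨(LA i).η (LA i).σ₀, CV'.hγ i, CV.hγ i, hxd i⟩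
      h := a
      hh := ctl_crd XV' φ₁ g1 LA a hctl CV'
      hx := ha }⟩

end

end Fermat.Agent.AsmX
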